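/-
Row 37 (S43), block TRIV, GENERIC FORM (helper32).

`F₀ ⊆ ℚ((t))` any field generated by series with integral coefficients (`IntGen F₀`), `A ∣ q` a valuation ring
of `ℚ̄`, `G` a group of `ℚ̄`-automorphisms of `FB F₀` (the diamond operators).

* `IsC A f`      : the series `f` is congruent to a nonzero CONSTANT for the Gauss valuation (`f ∈ ℚ̄ˣ (1 + 𝔪_v)`);
* `AllC A G u`   : `D u` is congruent to a constant for every `D ∈ G` (i.e. `u ∈ ℚ̄ˣ (1 + 𝔪)` at all the
                   `G`-conjugates `v ∘ D` of the Gauss valuation; the constant may depend on `D`);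
* `IsK A G x`    : the Kummer class `x` has ONE representative `u` with `AllC A G u`   (`x ∈ K_∞`);
* `Kinf A G n`   : the subgroup `K_∞` of `W1 F₀ n`.

This file: the calculus of `IsC` (series level, from `C1.RedS`) and `RedS` on `FB F₀`.
-/
import Fermat.Agent.S43.Ops.U.Defs
import Fermat.Agent.S48.BB.E.Scaling
import Fermat.Agent.C1.Red.Basic
import Fermat.Agent.C1.Red.Ops

set_option autoImplicit false

noncomputable section

namespace Fermat.Agent.S43.TrivG

open ModularCurve AlgebraicCurve Fermat.Agent.S24 Fermat.Agent.S24.B Fermat.Agent.S48.BB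
  Fermat.Agent.S48.BB.M Fermat.Agent.S48.BB.E Fermat.Agent.C1
open Fermat.Agent.GAL.E (GQ incl red qExpand_injective')

variable {A : ValuationSubring Kbar} {F₀ : IntermediateField ℚ (LaurentSeries ℚ)}

/-- `f ∈ ℚ̄ˣ (1 + 𝔪_v)`, `v` the Gauss valuation attached to `A`. -/
def IsC (A : ValuationSubring Kbar) (f : LaurentSeries Kbar) : Prop := ∃ c : Kbar, RedS A f c 1

namespace IsC

variable {f g : LaurentSeries Kbar}

theorem one : IsC A 1 := ⟨1, RedS.one⟩

theorem const {c : Kbar} (hc : c ≠ 0) : IsC A (HahnSeries.C c) := ⟨c, RedS.const hc⟩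

theorem ne_zero (h : IsC A f) : f ≠ 0 := h.choose_spec.ne_zero

theorem mul (hf : IsC A f) (hg : IsC A g) : IsC A (f * g) := by
  obtain ⟨c, hc⟩ := hf
  obtain ⟨d, hd⟩ := hg
  exact ⟨c * d, by simpa using hc.mul hd⟩

theorem inv (hf : IsC A f) : IsC A f⁻¹ := by
  obtain ⟨c, hc⟩ := hf
  exact ⟨c⁻¹, by simpa using hc.inv⟩

theorem div (hf : IsC A f) (hg : IsC A g) : IsC A (f / g) := by
  rw [div_eq_mul_inv]
  exact hf.mul hg.inv

theorem pow (hf : IsC A f) (m : ℕ) : IsC A (f ^ m) := by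
  obtain ⟨c, hc⟩ := hf
  exact ⟨c ^ m, by simpa using hc.pow m⟩

theorem prod {ι : Type*} (s : Finset ι) {F : ι → LaurentSeries Kbar} (h : ∀ i ∈ s, IsC A (F i)) :
    IsC A (∏ i ∈ s, F i) := by
  classical
  induction s using Finset.induction_on with
  | empty => simpa using IsC.one
  | insert a s ha ih =>
    rw [Finset.prod_insert ha]
    exact (h a (Finset.mem_insert_self a s)).mul
      (ih fun i hi => h i (Finset.mem_insert_of_mem hi))

theorem map_qExpand (hf : IsC A f) (m : ℕ) [NeZero m] : IsC A (qExpand Kbar m f) := by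
  obtain ⟨c, hc⟩ := hf
  exact ⟨c, by simpa using hc.map_qExpand m⟩

theorem twist (hf : IsC A f) (ζ : Kbarˣ) (m : ℕ) (hm : m ≠ 0) (hζ : ζ ^ m = 1) :
    IsC A (twist ζ f) := by
  obtain ⟨c, hc⟩ := hf
  exact ⟨c, hc.map_twist_one ζ m hm hζ⟩

theorem gal_inertia (hf : IsC A f) (τ : GQ) (hτ : τ ∈ A.inertiaSubgroupIn ℚ) :
    IsC A (coeffMap (τ : Kbar →+* Kbar) f) := by
  obtain ⟨c, hc⟩ := hf
  exact ⟨τ c, hc.gal_inertia τ hτ⟩

theorem gal_frobenius (hf : IsC A f) (q : ℕ) [Fact q.Prime]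
    [CharP (IsLocalRing.ResidueField A) q] (σ : GQ) (hσ : A.IsFrobeniusAt σ q) :
    IsC A (coeffMap (σ : Kbar →+* Kbar) f) := by
  obtain ⟨c, hc⟩ := hf
  exact ⟨σ c, by simpa using hc.gal_frobenius q σ hσ⟩

/-- a series with a constant reduction is congruent to a constant -/
theorem of_redS_C {c : Kbar} {a : IsLocalRing.ResidueField A} (h : RedS A f c (HahnSeries.C a)) :
    IsC A f := by
  have ha : a ≠ 0 := by
    rintro rfl
    exact h.red_ne_zero (map_zero _)
  obtain ⟨b, rfl⟩ := IsLocalRing.residue_surjective a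
  have hb : IsUnit b := by
    by_contra hb
    exact ha ((IsLocalRing.residue_eq_zero_iff b).mpr ((IsLocalRing.mem_maximalIdeal b).mpr hb))
  obtain ⟨bu, rfl⟩ := hb
  have h1 := h.rescale bu
  have e1 : HahnSeries.C (IsLocalRing.residue A ((bu⁻¹ : Aˣ) : A)) *
      HahnSeries.C (IsLocalRing.residue A (bu : A)) =
      (1 : LaurentSeries (IsLocalRing.ResidueField A)) := by
    rw [← map_mul, ← map_mul, Units.inv_mul, map_one, map_one]
  rw [e1] at h1
  exact ⟨_, h1⟩

end IsC

/-! ### `RedS` on `FB F₀` -/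

theorem coe_div (x y : FB F₀) :
    ((x / y : FB F₀) : LaurentSeries Kbar) = (x : LaurentSeries Kbar) / (y : LaurentSeries Kbar) :=
  rfl

theorem coe_mul (x y : FB F₀) :
    ((x * y : FB F₀) : LaurentSeries Kbar) = (x : LaurentSeries Kbar) * (y : LaurentSeries Kbar) :=
  rfl

theorem coe_inv (x : FB F₀) :
    ((x⁻¹ : FB F₀) : LaurentSeries Kbar) = (x : LaurentSeries Kbar)⁻¹ := rfl

theorem coe_one : ((1 : FB F₀) : LaurentSeries Kbar) = 1 := rfl

theorem exists_redS (hG : IntGen F₀) {q : ℕ} (hq : q.Prime) (hA : A.LiesOverPrime q) (u : FB F₀)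
    (hu : u ≠ 0) :
    ∃ (c : Kbar) (r : LaurentSeries (IsLocalRing.ResidueField A)),
      RedS A (u : LaurentSeries Kbar) c r := by
  obtain ⟨c, x, y, hx, hy, hc, hrx, hry, hu'⟩ := exists_scaling hG A q hq hA u hu
  refine ⟨c, red A x / red A y, hc, x, y, hrx, hry, ?_, div_mul_cancel₀ _ hry⟩
  rw [hu', coe_mul, coe_div, HeckeOp1.coe_algebraMap, mul_assoc,
    div_mul_cancel₀ _ (incl_ne_zero_of_red_ne_zero hry)]

/-- descent of the normalisation along `t ↦ t^m` -/
theorem redS_of_qExpand (hG : IntGen F₀) {q : ℕ} (hq : q.Prime) (hA : A.LiesOverPrime q)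
    (u : FB F₀) (m : ℕ) [NeZero m] {c : Kbar} {r : LaurentSeries (IsLocalRing.ResidueField A)}
    (h : RedS A (qExpand Kbar m (u : LaurentSeries Kbar)) c
      (qExpand (IsLocalRing.ResidueField A) m r)) :
    RedS A (u : LaurentSeries Kbar) c r := by
  have hu0 : u ≠ 0 := by
    rintro rfl
    apply h.ne_zero
    show qExpand Kbar m 0 = 0
    exact map_zero _
  obtain ⟨c', r', h'⟩ := exists_redS hG hq hA u hu0
  obtain ⟨a, ha1, ha2⟩ := h.unique (h'.map_qExpand m)
  have h3 := h'.rescale a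
  rw [← ha1] at h3
  have h4 : HahnSeries.C (IsLocalRing.residue A ((a⁻¹ : Aˣ) : A)) * r' = r := by
    apply qExpand_injective (R := IsLocalRing.ResidueField A) m
    rw [map_mul, qExpand_C, ha2, ← mul_assoc, ← map_mul, ← map_mul, Units.inv_mul, map_one,
      map_one, one_mul]
  rwa [h4] at h3

theorem isC_of_qExpand (hG : IntGen F₀) {q : ℕ} (hq : q.Prime) (hA : A.LiesOverPrime q)
    (u : FB F₀) (m : ℕ) [NeZero m] (h : IsC A (qExpand Kbar m (u : LaurentSeries Kbar))) :
    IsC A (u : LaurentSeries Kbar) := by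
  obtain ⟨c, hc⟩ := h
  refine ⟨c, redS_of_qExpand hG hq hA u m ?_⟩
  rwa [map_one]

end Fermat.Agent.S43.TrivG

end
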