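/-
Row 37 (S43), block TRIV, GENERIC FORM (helper32).  The subgroup `K_∞` and the trivial inclusions.

`G` = a group of `ℚ̄`-automorphisms of `FB F₀` commuting with `G_ℚ` (`GalComm G`): the diamond operators.

* `Kinf A G n`                : the subgroup `K_∞ ≤ W1 F₀ n`;
* `isK_rho_sub`               : (F1) `(τ - 1) W ≤ K_∞`            for `τ ∈ I_A`;
* `isK_rho_sub_UW`            : (F2) `(φ - U_q) W ≤ K_∞`          for `φ` a Frobenius at `A ∣ q`;
* `IsK.autW`, `IsK.rho_inertia`, `IsK.rho_frobenius`, `IsK.TW`, `IsK.UW` : stabilities.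
-/
import Fermat.Agent.S43.TrivG.Basic

set_option autoImplicit false

noncomputable section

namespace Fermat.Agent.S43.TrivG

open ModularCurve AlgebraicCurve Fermat.Agent.S24 Fermat.Agent.S24.B Fermat.Agent.S48.BB
  Fermat.Agent.S48.BB.M Fermat.Agent.S48.BB.E Fermat.Agent.C1 Fermat.Agent.S43.Ops.U
open Fermat.Agent.GAL.E (GQ incl red qExpand_injective')

variable {A : ValuationSubring Kbar} {F₀ : IntermediateField ℚ (LaurentSeries ℚ)}

/-- `u ∈ ℚ̄ˣ (1 + 𝔪)` at all the `G`-conjugates of the Gauss valuation. -/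
def AllC (A : ValuationSubring Kbar) (G : Subgroup (FB F₀ ≃ₐ[Kbar] FB F₀)) (u : FB F₀) : Prop :=
  ∀ D ∈ G, IsC A ((D u : FB F₀) : LaurentSeries Kbar)

/-- the elements of `G` are defined over `ℚ` -/
def GalComm (G : Subgroup (FB F₀ ≃ₐ[Kbar] FB F₀)) : Prop :=
  ∀ D ∈ G, ∀ (σ : GQ) (u : FB F₀), galF F₀ σ (D u) = D (galF F₀ σ u)

variable {G : Subgroup (FB F₀ ≃ₐ[Kbar] FB F₀)}

namespace AllC

variable {u v : FB F₀}

theorem one : AllC A G (1 : FB F₀) := fun D _ => by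
  rw [map_one]
  exact IsC.one

theorem mul (hu : AllC A G u) (hv : AllC A G v) : AllC A G (u * v) := fun D hD => by
  rw [map_mul]
  exact (hu D hD).mul (hv D hD)

theorem inv (hu : AllC A G u) : AllC A G u⁻¹ := fun D hD => by
  rw [map_inv₀]
  exact (hu D hD).inv

theorem div (hu : AllC A G u) (hv : AllC A G v) : AllC A G (u / v) := fun D hD => by
  rw [map_div₀]
  exact (hu D hD).div (hv D hD)

theorem pow (hu : AllC A G u) (m : ℕ) : AllC A G (u ^ m) := fun D hD => by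
  rw [map_pow]
  exact (hu D hD).pow m

theorem const {c : Kbar} (hc : c ≠ 0) : AllC A G (algebraMap Kbar (FB F₀) c) := fun D _ => by
  rw [AlgEquiv.commutes, HeckeOp1.coe_algebraMap]
  exact IsC.const hc

theorem self (hu : AllC A G u) : IsC A (u : LaurentSeries Kbar) := hu 1 G.one_mem

theorem ne_zero (hu : AllC A G u) : u ≠ 0 := by
  rintro rfl
  exact hu.self.ne_zero rfl

theorem aut (hu : AllC A G u) {D' : FB F₀ ≃ₐ[Kbar] FB F₀} (hD' : D' ∈ G) : AllC A G (D' u) :=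
  fun D hD => hu (D * D') (G.mul_mem hD hD')

/-- an element fixed by `G` -/
theorem of_fixed (hfix : ∀ D ∈ G, D u = u) (hu : IsC A (u : LaurentSeries Kbar)) : AllC A G u :=
  fun D hD => by rw [hfix D hD]; exact hu

theorem mono {G' : Subgroup (FB F₀ ≃ₐ[Kbar] FB F₀)} (h : G' ≤ G) (hu : AllC A G u) :
    AllC A G' u := fun D hD => hu D (h hD)

theorem gal_inertia (hGal : GalComm G) (hu : AllC A G u) (τ : GQ)
    (hτ : τ ∈ A.inertiaSubgroupIn ℚ) : AllC A G (galF F₀ τ u) := fun D hD => by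
  rw [← hGal D hD, coe_galF]
  exact (hu D hD).gal_inertia τ hτ

theorem gal_frobenius (hGal : GalComm G) (hu : AllC A G u) (q : ℕ) [Fact q.Prime]
    [CharP (IsLocalRing.ResidueField A) q] (σ : GQ) (hσ : A.IsFrobeniusAt σ q) :
    AllC A G (galF F₀ σ u) := fun D hD => by
  rw [← hGal D hD, coe_galF]
  exact (hu D hD).gal_frobenius q σ hσ

end AllC

/-- `σ u / u ≡ const` for `σ` in the inertia group -/
theorem allC_gal_div (hF : IntGen F₀) {q : ℕ} (hq : q.Prime) (hA : A.LiesOverPrime q)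
    (hGal : GalComm G) (τ : GQ) (hτ : τ ∈ A.inertiaSubgroupIn ℚ) {u : FB F₀} (hu : u ≠ 0) :
    AllC A G (galF F₀ τ u / u) := fun D hD => by
  have hDu : D u ≠ 0 := (map_ne_zero D).2 hu
  obtain ⟨c, r, h⟩ := exists_redS hF hq hA (D u) hDu
  have hd := (h.gal_inertia τ hτ).div h
  rw [div_self h.red_ne_zero] at hd
  rw [map_div₀, ← hGal D hD, coe_div, coe_galF]
  exact ⟨_, hd⟩

/-- the reduction of `U_q u` -/
theorem redS_U (hF : IntGen F₀) {q : ℕ} [NeZero q] [Fact q.Prime]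
    [CharP (IsLocalRing.ResidueField A) q] (hA : A.LiesOverPrime q) (X : UOp F₀ q) (u : FB F₀)
    {c : Kbar} {r : LaurentSeries (IsLocalRing.ResidueField A)}
    (h : RedS A (u : LaurentSeries Kbar) c r) :
    RedS A ((X.U u : FB F₀) : LaurentSeries Kbar) (c ^ q)
      (coeffMap (frobenius (IsLocalRing.ResidueField A) q) r) := by
  have hq : q.Prime := Fact.out
  apply redS_of_qExpand hF hq hA (X.U u) q
  rw [X.qExpand_U, ← GAL.E.pow_char_eq_qExpand]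
  have hζ : ∀ b : ℕ, (zetaK q ^ b) ^ q = 1 := fun b => by
    rw [← pow_mul, mul_comm, pow_mul, (isPrimitiveRoot_zetaK q).pow_eq_one, one_pow]
  have h1 := RedS.prod (Finset.range q)
    (F := fun b => twist (zetaK q ^ b) (u : LaurentSeries Kbar))
    (C := fun _ => c) (R := fun _ => r)
    (fun b _ => h.map_twist_char hq hA (zetaK q ^ b) (hζ b))
  simpa only [Finset.prod_const, Finset.card_range] using h1

/-- `φ u / U_q u ≡ const` for a Frobenius `φ` -/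
theorem allC_frob_div_U (hF : IntGen F₀) {q : ℕ} [NeZero q] (hq : q.Prime)
    (hA : A.LiesOverPrime q) (hGal : GalComm G) (X : UOp F₀ q)
    (hX : ∀ D ∈ G, ∀ u : FB F₀, X.U (D u) = D (X.U u)) (σ : GQ) (hσ : A.IsFrobeniusAt σ q)
    {u : FB F₀} (hu : u ≠ 0) : AllC A G (galF F₀ σ u / X.U u) := fun D hD => by
  have : Fact q.Prime := ⟨hq⟩
  have := GAL.E.charP_residueField A q hq hA
  have hDu : D u ≠ 0 := (map_ne_zero D).2 hu
  obtain ⟨c, r, h⟩ := exists_redS hF hq hA (D u) hDu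
  have h2 := h.gal_frobenius q σ hσ
  have hd := h2.div (redS_U hF hA X (D u) h)
  rw [div_self h2.red_ne_zero] at hd
  rw [map_div₀, ← hGal D hD, ← hX D hD, coe_div, coe_galF]
  exact ⟨_, hd⟩

/-- `U_q` preserves `≡ const` -/
theorem AllC.U (hF : IntGen F₀) {q : ℕ} [NeZero q] (hq : q.Prime) (hA : A.LiesOverPrime q)
    (X : UOp F₀ q) (hX : ∀ D ∈ G, ∀ u : FB F₀, X.U (D u) = D (X.U u)) {u : FB F₀}
    (hu : AllC A G u) : AllC A G (X.U u) := fun D hD => by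
  have : Fact q.Prime := ⟨hq⟩
  have := GAL.E.charP_residueField A q hq hA
  obtain ⟨c, h⟩ := hu D hD
  have h1 := redS_U hF hA X (D u) h
  rw [map_one] at h1
  rw [← hX D hD]
  exact ⟨_, h1⟩

/-- `T_ℓ` preserves `≡ const` (any residue characteristic) -/
theorem AllC.T (hF : IntGen F₀) {q : ℕ} (hq : q.Prime) (hA : A.LiesOverPrime q) {ℓ : ℕ} [NeZero ℓ]
    (H : HeckeOp1 F₀ ℓ) (hD : H.D ∈ G) (hH : ∀ D ∈ G, ∀ u : FB F₀, H.T (D u) = D (H.T u))
    {u : FB F₀} (hu : AllC A G u) : AllC A G (H.T u) := fun D hDG => by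
  have hℓ : ℓ ≠ 0 := NeZero.ne ℓ
  have : NeZero (ℓ * ℓ) := ⟨mul_ne_zero hℓ hℓ⟩
  rw [← hH D hDG]
  apply isC_of_qExpand hF hq hA (H.T (D u)) ℓ
  rw [H.qExpand_T]
  refine ((hu (H.D * D) (G.mul_mem hD hDG)).map_qExpand (ℓ * ℓ)).mul (IsC.prod _ fun b _ => ?_)
  refine (hu D hDG).twist _ ℓ hℓ ?_
  rw [← pow_mul, mul_comm, pow_mul, (isPrimitiveRoot_zetaK ℓ).pow_eq_one, one_pow]

/-! ### The subgroup `K_∞` -/

/-- `x ∈ K_∞`: the class `x` has ONE representative which is congruent to a constant at all the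
`G`-conjugates of the Gauss valuation. -/
def IsK (A : ValuationSubring Kbar) (G : Subgroup (FB F₀ ≃ₐ[Kbar] FB F₀)) {n : ℕ}
    (x : W1 F₀ n) : Prop :=
  ∃ u : kum (FB F₀) n, cls u = x ∧ AllC A G ((u : (FB F₀)ˣ) : FB F₀)

namespace IsK

variable {n : ℕ} {x y : W1 F₀ n}

theorem zero : IsK A G (0 : W1 F₀ n) := ⟨1, cls_one, by simpa using AllC.one (A := A) (G := G)⟩

theorem add (hx : IsK A G x) (hy : IsK A G y) : IsK A G (x + y) := by
  obtain ⟨u, rfl, hu⟩ := hx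
  obtain ⟨v, rfl, hv⟩ := hy
  refine ⟨u * v, cls_mul u v, ?_⟩
  rw [Subgroup.coe_mul, Units.val_mul]
  exact hu.mul hv

theorem neg (hx : IsK A G x) : IsK A G (-x) := by
  obtain ⟨u, rfl, hu⟩ := hx
  refine ⟨u⁻¹, cls_inv u, ?_⟩
  rw [Subgroup.coe_inv, Units.val_inv_eq_inv_val]
  exact hu.inv

theorem sub (hx : IsK A G x) (hy : IsK A G y) : IsK A G (x - y) := by
  have e : x - y = x + -y := sub_eq_add_neg x y
  rw [e]
  exact hx.add hy.neg

theorem mono {G' : Subgroup (FB F₀ ≃ₐ[Kbar] FB F₀)} (h : G' ≤ G) (hx : IsK A G x) :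
    IsK A G' x := by
  obtain ⟨u, rfl, hu⟩ := hx
  exact ⟨u, rfl, hu.mono h⟩

end IsK

/-- The subgroup `K_∞`. -/
def Kinf (A : ValuationSubring Kbar) (G : Subgroup (FB F₀ ≃ₐ[Kbar] FB F₀)) (n : ℕ) :
    AddSubgroup (W1 F₀ n) where
  carrier := {x | IsK A G x}
  zero_mem' := IsK.zero
  add_mem' := IsK.add
  neg_mem' := IsK.neg

theorem mem_Kinf {n : ℕ} {x : W1 F₀ n} : x ∈ Kinf A G n ↔ IsK A G x := Iff.rfl

/-- a criterion: the class of a quotient -/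
theorem isK_cls_sub {n : ℕ} (a b : kum (FB F₀) n)
    (h : AllC A G (((a : (FB F₀)ˣ) : FB F₀) / ((b : (FB F₀)ˣ) : FB F₀))) :
    IsK A G (cls a - cls b) := by
  refine ⟨a / b, ?_, ?_⟩
  · rw [div_eq_mul_inv, cls_mul, cls_inv]
    exact (sub_eq_add_neg (G := W1 F₀ n) _ _).symm
  · rw [Subgroup.coe_div, Units.val_div_eq_div_val]
    exact h

/-- **(F1)** `(τ - 1) W ≤ K_∞` for `τ` in the inertia group. -/
theorem isK_rho_sub (hF : IntGen F₀) {q : ℕ} (hq : q.Prime) (hA : A.LiesOverPrime q)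
    (hGal : GalComm G) {n : ℕ} (τ : GQ) (hτ : τ ∈ A.inertiaSubgroupIn ℚ) (x : W1 F₀ n) :
    IsK A G (rho F₀ n τ x - x) := by
  obtain ⟨u, rfl⟩ := cls_surjective x
  rw [rho_cls]
  exact isK_cls_sub _ _ (allC_gal_div hF hq hA hGal τ hτ (Units.ne_zero _))

/-- **(F2)** `(φ - U_q) W ≤ K_∞` for `φ` a Frobenius at `A ∣ q`. -/
theorem isK_rho_sub_UW (hF : IntGen F₀) {q : ℕ} [NeZero q] (hq : q.Prime)
    (hA : A.LiesOverPrime q) (hGal : GalComm G) (X : UOp F₀ q)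
    (hX : ∀ D ∈ G, ∀ u : FB F₀, X.U (D u) = D (X.U u)) {n : ℕ} (σ : GQ)
    (hσ : A.IsFrobeniusAt σ q) (x : W1 F₀ n) : IsK A G (rho F₀ n σ x - X.UW n x) := by
  obtain ⟨u, rfl⟩ := cls_surjective x
  rw [rho_cls, X.UW_cls]
  exact isK_cls_sub _ _ (allC_frob_div_U hF hq hA hGal X hX σ hσ (Units.ne_zero _))

/-! ### Stabilities -/

theorem IsK.autW {n : ℕ} {x : W1 F₀ n} (hx : IsK A G x) {D : FB F₀ ≃ₐ[Kbar] FB F₀} (hD : D ∈ G) :
    IsK A G (autW D n x) := by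
  obtain ⟨u, rfl, hu⟩ := hx
  exact ⟨_, (autW_cls D u).symm, hu.aut hD⟩

theorem IsK.rho_inertia (hGal : GalComm G) {n : ℕ} {x : W1 F₀ n} (hx : IsK A G x) (τ : GQ)
    (hτ : τ ∈ A.inertiaSubgroupIn ℚ) : IsK A G (rho F₀ n τ x) := by
  obtain ⟨u, rfl, hu⟩ := hx
  exact ⟨_, (rho_cls τ u).symm, hu.gal_inertia hGal τ hτ⟩

theorem IsK.rho_frobenius (hGal : GalComm G) {q : ℕ} (hq : q.Prime) (hA : A.LiesOverPrime q)
    {n : ℕ} {x : W1 F₀ n} (hx : IsK A G x) (σ : GQ) (hσ : A.IsFrobeniusAt σ q) :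
    IsK A G (rho F₀ n σ x) := by
  have : Fact q.Prime := ⟨hq⟩
  have := GAL.E.charP_residueField A q hq hA
  obtain ⟨u, rfl, hu⟩ := hx
  exact ⟨_, (rho_cls σ u).symm, hu.gal_frobenius hGal q σ hσ⟩

theorem IsK.UW (hF : IntGen F₀) {q : ℕ} [NeZero q] (hq : q.Prime) (hA : A.LiesOverPrime q)
    (X : UOp F₀ q) (hX : ∀ D ∈ G, ∀ u : FB F₀, X.U (D u) = D (X.U u)) {n : ℕ} {x : W1 F₀ n}
    (hx : IsK A G x) : IsK A G (X.UW n x) := by
  obtain ⟨u, rfl, hu⟩ := hx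
  exact ⟨_, (X.UW_cls u).symm, hu.U hF hq hA X hX⟩

theorem IsK.TW (hF : IntGen F₀) {q : ℕ} (hq : q.Prime) (hA : A.LiesOverPrime q) {ℓ : ℕ} [NeZero ℓ]
    (H : HeckeOp1 F₀ ℓ) (hD : H.D ∈ G) (hH : ∀ D ∈ G, ∀ u : FB F₀, H.T (D u) = D (H.T u)) {n : ℕ}
    {x : W1 F₀ n} (hx : IsK A G x) : IsK A G (H.TW n x) := by
  obtain ⟨u, rfl, hu⟩ := hx
  exact ⟨_, (H.TW_cls u).symm, hu.T hF hq hA H hD hH⟩

end Fermat.Agent.S43.TrivG

end
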